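import Mathlib
import Fermat.Prelude.Def_ModularCurve_X0ModL
import Fermat.Agent.Igusa.LaurentExt

/-!
# The full modular function field as an extension of the line `k(j)`
-/

set_option autoImplicit false
set_option maxHeartbeats 1000000
set_option synthInstance.maxHeartbeats 400000

noncomputable section

namespace Fermat.Agent.Igusa

open ModularCurve Polynomial

variable (k : Type*) [Field k]

/-- The line `k(j)` inside `k((q))`. -/
abbrev jLine : IntermediateField k (LaurentSeries k) :=
  IntermediateField.adjoin k ({jqModC k} : Set (LaurentSeries k))

/-- The full modular function field as an extension of `k(j)`. -/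
abbrev fullOverLine (N : ℕ) : IntermediateField (jLine k) (LaurentSeries k) :=
  IntermediateField.adjoin (jLine k) (divisorExpansionsC k N)

variable (N : ℕ) [NeZero N]

omit [NeZero N] in
theorem jqModC_mem_divisorExpansionsC : jqModC k ∈ divisorExpansionsC k N :=
  ⟨1, inferInstance, one_dvd N, (qExpand_one_apply _).symm⟩

omit [NeZero N] in
theorem restrictScalars_fullOverLine :
    (fullOverLine k N).restrictScalars k = modularFunctionFieldFullC k N := by
  rw [fullOverLine, IntermediateField.adjoin_adjoin_left, modularFunctionFieldFullC,
    Set.union_eq_self_of_subset_left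
      (Set.singleton_subset_iff.mpr (jqModC_mem_divisorExpansionsC k N))]

omit [NeZero N] in
theorem mem_fullOverLine_iff {x : LaurentSeries k} :
    x ∈ fullOverLine k N ↔ x ∈ modularFunctionFieldFullC k N := by
  rw [← restrictScalars_fullOverLine]
  rfl

omit [NeZero N] in
/-- The statement that `F(k)` has degree exactly `n` over `k(j)`. -/
def HasFullDegree (n : ℕ) : Prop :=
  FiniteDimensional (jLine k) (fullOverLine k N) ∧
    Module.finrank (jLine k) (fullOverLine k N) = n

variable (K : Type*) [Field K] [Algebra k K]

omit [NeZero N] in
theorem HasFullDegree.extend {n : ℕ} (h : HasFullDegree k N n) : HasFullDegree K N n := by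
  have := h.1
  have hxK : Function.Injective (aeval (R := K) (liftK k K (jqModC k))) := by
    rw [liftK_jqModC]; exact aeval_jqModC_injective
  have := finrank_adjoin_liftK K aeval_jqModC_injective hxK (divisorExpansionsC k N)
  rw [liftK_divisorExpansionsC, liftK_jqModC] at this
  exact ⟨this.1, this.2.trans h.2⟩

end Fermat.Agent.Igusa

end
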