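import Mathlib
import Fermat.Prelude.Def_GaloisRep_Flat

/-!
# The ring `ℤ_(ℓ)` as a subring of `ℚ`
-/

set_option autoImplicit false

noncomputable section

namespace Fermat.Agent.Igusa

variable {ℓ : ℕ} [hℓ : Fact ℓ.Prime]


theorem mem_ratLocalizedAt_iff (x : ℚ) :
    x ∈ GaloisRep.ratLocalizedAt ℓ ↔ ¬ ℓ ∣ x.den := by
  change x.den.Coprime ℓ ↔ _
  rw [Nat.coprime_comm, hℓ.out.coprime_iff_not_dvd]

theorem mem_ratLocalizedAt_iff_padicNorm (x : ℚ) :
    x ∈ GaloisRep.ratLocalizedAt ℓ ↔ padicNorm ℓ x ≤ 1 := by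
  rw [mem_ratLocalizedAt_iff]
  have hnum : padicNorm ℓ x = padicNorm ℓ (x.num : ℚ) / padicNorm ℓ (x.den : ℚ) := by
    rw [← padicNorm.div, Rat.num_div_den]
  constructor
  · intro h
    rw [hnum, (padicNorm.nat_eq_one_iff x.den).mpr h, div_one]
    exact padicNorm.of_int _
  · intro h hdvd
    have hndvd : ¬ (ℓ : ℤ) ∣ x.num := by
      intro hn
      have h1 : ℓ ∣ Nat.gcd x.num.natAbs x.den := Nat.dvd_gcd (Int.natCast_dvd.mp hn) hdvd
      rw [x.reduced] at h1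
      exact hℓ.out.not_dvd_one h1
    rw [hnum, (padicNorm.int_eq_one_iff x.num).mpr hndvd] at h
    have hlt := (padicNorm.nat_lt_one_iff x.den).mpr hdvd
    have hpos : 0 < padicNorm ℓ (x.den : ℚ) :=
      lt_of_le_of_ne (padicNorm.nonneg _)
        (Ne.symm (padicNorm.nonzero (by exact_mod_cast x.den_ne_zero)))
    rw [div_le_one hpos] at h
    linarith

omit hℓ in
theorem natCast_ne_zero_of_not_dvd {K : Type*} [Field K] [CharP K ℓ] {n : ℕ} (h : ¬ ℓ ∣ n) :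
    (n : K) ≠ 0 := fun h0 => h ((CharP.cast_eq_zero_iff K ℓ n).mp h0)

/-- Reduction `ℤ_(ℓ) → K` for a field `K` of characteristic `ℓ`. -/
def ratLocalToField (K : Type*) [Field K] [CharP K ℓ] : ↥(GaloisRep.ratLocalizedAt ℓ) →+* K where
  toFun x := ((x : ℚ) : K)
  map_one' := by simp
  map_zero' := by simp
  map_mul' x y := by
    have hx := natCast_ne_zero_of_not_dvd (K := K) ((mem_ratLocalizedAt_iff _).mp x.2)
    have hy := natCast_ne_zero_of_not_dvd (K := K) ((mem_ratLocalizedAt_iff _).mp y.2)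
    push_cast
    exact Rat.cast_mul_of_ne_zero hx hy
  map_add' x y := by
    have hx := natCast_ne_zero_of_not_dvd (K := K) ((mem_ratLocalizedAt_iff _).mp x.2)
    have hy := natCast_ne_zero_of_not_dvd (K := K) ((mem_ratLocalizedAt_iff _).mp y.2)
    push_cast
    exact Rat.cast_add_of_ne_zero hx hy

theorem ringHom_ratLocal_ext {K : Type*} [Field K] [CharP K ℓ] (f g : ↥(GaloisRep.ratLocalizedAt ℓ) →+* K) : f = g := by
  ext x
  have hden := natCast_ne_zero_of_not_dvd (K := K) ((mem_ratLocalizedAt_iff _).mp x.2)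
  have hx : x * ((x : ℚ).den : ↥(GaloisRep.ratLocalizedAt ℓ)) = ((x : ℚ).num : ↥(GaloisRep.ratLocalizedAt ℓ)) := by
    apply Subtype.ext
    push_cast
    exact_mod_cast Rat.mul_den_eq_num (x : ℚ)
  have h1 := congrArg f hx
  have h2 := congrArg g hx
  rw [map_mul, map_natCast, map_intCast] at h1 h2
  exact mul_right_cancel₀ hden (h1.trans h2.symm)

/-- Reduction `ℤ_(ℓ) → ZMod ℓ`. -/
def redHom : ↥(GaloisRep.ratLocalizedAt ℓ) →+* ZMod ℓ := ratLocalToField (ZMod ℓ)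

theorem exists_eq_mul_of_redHom_eq_zero {x : ↥(GaloisRep.ratLocalizedAt ℓ)} (h : redHom x = 0) :
    ∃ y : ↥(GaloisRep.ratLocalizedAt ℓ), x = (ℓ : ↥(GaloisRep.ratLocalizedAt ℓ)) * y := by
  set q : ℚ := (x : ℚ) with hq
  have hden : ¬ ℓ ∣ q.den := (mem_ratLocalizedAt_iff _).mp x.2
  have hx : x * (q.den : ↥(GaloisRep.ratLocalizedAt ℓ)) = (q.num : ↥(GaloisRep.ratLocalizedAt ℓ)) := by
    apply Subtype.ext
    push_cast
    rw [hq]
    exact_mod_cast Rat.mul_den_eq_num (x : ℚ)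
  have h1 := congrArg redHom hx
  rw [map_mul, h, zero_mul, map_intCast, eq_comm, ZMod.intCast_zmod_eq_zero_iff_dvd] at h1
  obtain ⟨m, hm⟩ := h1
  have hℓq : (ℓ : ℚ) ≠ 0 := by exact_mod_cast hℓ.out.ne_zero
  have hmem : q / ℓ ∈ GaloisRep.ratLocalizedAt ℓ := by
    have hq' : q / ℓ = (m : ℚ) / q.den := by
      have hnd := Rat.num_div_den q
      rw [hm] at hnd
      push_cast at hnd
      conv_lhs => rw [← hnd]
      field_simp
    rw [hq', mem_ratLocalizedAt_iff]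
    intro hd
    have h2 := Rat.den_dvd m (q.den : ℤ)
    rw [Rat.divInt_eq_div] at h2
    push_cast at h2
    exact hden (hd.trans (by exact_mod_cast h2))
  refine ⟨⟨q / ℓ, hmem⟩, Subtype.ext ?_⟩
  push_cast
  rw [mul_div_cancel₀ _ hℓq]

theorem redHom_eq_zero_iff {x : ↥(GaloisRep.ratLocalizedAt ℓ)} : redHom x = 0 ↔ (ℓ : ↥(GaloisRep.ratLocalizedAt ℓ)) ∣ x := by
  refine ⟨exists_eq_mul_of_redHom_eq_zero, ?_⟩
  rintro ⟨y, rfl⟩
  simp

theorem natCast_ratLocal_ne_zero : ((ℓ : ℕ) : ↥(GaloisRep.ratLocalizedAt ℓ)) ≠ 0 := by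
  intro h
  have := congrArg (fun z : ↥(GaloisRep.ratLocalizedAt ℓ) => (z : ℚ)) h
  simp [hℓ.out.ne_zero] at this

theorem prime_natCast_ratLocal : Prime ((ℓ : ℕ) : ↥(GaloisRep.ratLocalizedAt ℓ)) := by
  refine ⟨natCast_ratLocal_ne_zero, ?_, ?_⟩
  · intro hu
    have := hu.map (redHom (ℓ := ℓ))
    rw [map_natCast, ZMod.natCast_self] at this
    exact not_isUnit_zero this
  · intro a b hab
    simp only [← redHom_eq_zero_iff] at hab ⊢
    rwa [map_mul, mul_eq_zero] at hab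

/-- If `c * u ^ n` is `ℓ`-integral for all `n`, with `c ≠ 0`, then `u` is `ℓ`-integral. -/
theorem mem_ratLocalizedAt_of_forall_pow {c u : ℚ} (hc : c ≠ 0)
    (h : ∀ n : ℕ, c * u ^ n ∈ GaloisRep.ratLocalizedAt ℓ) :
    u ∈ GaloisRep.ratLocalizedAt ℓ := by
  rw [mem_ratLocalizedAt_iff_padicNorm]
  by_contra! hu
  have hcpos : 0 < padicNorm ℓ c :=
    lt_of_le_of_ne (padicNorm.nonneg _) (Ne.symm (padicNorm.nonzero hc))
  obtain ⟨n, hn⟩ := pow_unbounded_of_one_lt (padicNorm ℓ c)⁻¹ hu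
  have hp : ∀ m : ℕ, padicNorm ℓ (u ^ m) = padicNorm ℓ u ^ m := by
    intro m
    induction m with
    | zero => simp
    | succ m ih => rw [pow_succ, pow_succ, padicNorm.mul, ih]
  have h1 := (mem_ratLocalizedAt_iff_padicNorm _).mp (h n)
  rw [padicNorm.mul, hp] at h1
  have h2 : padicNorm ℓ c * (padicNorm ℓ c)⁻¹ < padicNorm ℓ c * padicNorm ℓ u ^ n :=
    mul_lt_mul_of_pos_left hn hcpos
  rw [mul_inv_cancel₀ hcpos.ne'] at h2
  linarith

theorem mem_or_inv_mem_ratLocalizedAt (x : ℚ) :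
    x ∈ GaloisRep.ratLocalizedAt ℓ ∨ x⁻¹ ∈ GaloisRep.ratLocalizedAt ℓ := by
  rcases le_total (padicNorm ℓ x) 1 with h | h
  · exact Or.inl ((mem_ratLocalizedAt_iff_padicNorm _).mpr h)
  · refine Or.inr ((mem_ratLocalizedAt_iff_padicNorm _).mpr ?_)
    have : padicNorm ℓ x⁻¹ = (padicNorm ℓ x)⁻¹ := by
      rw [inv_eq_one_div, padicNorm.div, padicNorm.one, one_div]
    rw [this]
    exact inv_le_one_of_one_le₀ h

theorem isIntegrallyClosed_ratLocalizedAt : IsIntegrallyClosed ↥(GaloisRep.ratLocalizedAt ℓ) :=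
  inferInstanceAs (IsIntegrallyClosed
    (ValuationSubring.ofSubring (GaloisRep.ratLocalizedAt ℓ) mem_or_inv_mem_ratLocalizedAt))

end Fermat.Agent.Igusa

end
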