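import Mathlib
import Fermat.Prelude.Def_ModularCurve_X0ModL
import Fermat.Agent.Igusa.RatLocal

/-!
# Laurent series with `ℓ`-integral coefficients

The subring of `ℚ((q))` of series with coefficients in `ℤ_(ℓ)`, its reductions, and the fact that
it contains every element of the fields we use which is integral over it.
-/

set_option autoImplicit false

noncomputable section

namespace Fermat.Agent.Igusa

open ModularCurve Polynomial

variable (ℓ : ℕ) [hℓ : Fact ℓ.Prime]

/-- Series with coefficients in `ℤ_(ℓ)`. -/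
def intSeries : Subring (LaurentSeries ℚ) :=
  (coeffMap (GaloisRep.ratLocalizedAt ℓ).subtype).range

variable {ℓ}

omit hℓ in
theorem mem_intSeries_iff {x : LaurentSeries ℚ} :
    x ∈ intSeries ℓ ↔ ∀ n, x.coeff n ∈ GaloisRep.ratLocalizedAt ℓ := by
  constructor
  · rintro ⟨y, rfl⟩ n
    rw [coeffMap_coeff]
    exact (y.coeff n).2
  · intro h
    refine ⟨⟨fun n => ⟨x.coeff n, h n⟩, x.isPWO_support.mono ?_⟩, ?_⟩
    · intro n hn
      simp only [Function.mem_support, HahnSeries.mem_support, ne_eq] at hn ⊢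
      exact fun h0 => hn (Subtype.ext h0)
    · ext n; rfl

variable (ℓ) in
/-- An integral series as a series over `ℤ_(ℓ)`. -/
def intLift : intSeries ℓ ≃+* LaurentSeries (GaloisRep.ratLocalizedAt ℓ) :=
  (RingEquiv.ofBijective (coeffMap (GaloisRep.ratLocalizedAt ℓ).subtype).rangeRestrict
    ⟨fun x y h => HahnSeries.ext (funext fun n => Subtype.ext (by
        simpa using congrArg (fun z => z.1.coeff n) h)),
      RingHom.rangeRestrict_surjective _⟩).symm

omit hℓ in
theorem coe_coeff_intLift (x : intSeries ℓ) (n : ℤ) :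
    (((intLift ℓ x).coeff n : GaloisRep.ratLocalizedAt ℓ) : ℚ) = x.1.coeff n :=
  congrArg (fun z : intSeries ℓ => z.1.coeff n) ((intLift ℓ).symm_apply_apply x)

variable (ℓ) in
/-- Coefficientwise reduction of integral series to a field of characteristic `ℓ`. -/
def redSeries (K : Type*) [Field K] [CharP K ℓ] : intSeries ℓ →+* LaurentSeries K :=
  (coeffMap (ratLocalToField (ℓ := ℓ) K)).comp (intLift ℓ).toRingHom

theorem coeff_redSeries (K : Type*) [Field K] [CharP K ℓ] (x : intSeries ℓ) (n : ℤ) :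
    (redSeries ℓ K x).coeff n =
      ratLocalToField (ℓ := ℓ) K ⟨x.1.coeff n, mem_intSeries_iff.mp x.2 n⟩ :=
  congrArg (ratLocalToField (ℓ := ℓ) K) (Subtype.ext (coe_coeff_intLift x n))

theorem redSeries_eq_liftK (K : Type*) [Field K] [CharP K ℓ] [Algebra (ZMod ℓ) K]
    (x : intSeries ℓ) :
    redSeries ℓ K x = coeffMap (algebraMap (ZMod ℓ) K) (redSeries ℓ (ZMod ℓ) x) := by
  ext n
  rw [coeffMap_coeff, coeff_redSeries, coeff_redSeries]
  exact congrArg (fun φ : GaloisRep.ratLocalizedAt ℓ →+* K => φ _)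
    (ringHom_ratLocal_ext (ratLocalToField (ℓ := ℓ) K)
      ((algebraMap (ZMod ℓ) K).comp (ratLocalToField (ℓ := ℓ) (ZMod ℓ))))

/-- An integral series which vanishes mod `ℓ` is `ℓ` times an integral series. -/
theorem exists_eq_mul_of_redSeries_eq_zero {x : intSeries ℓ}
    (h : redSeries ℓ (ZMod ℓ) x = 0) : ∃ y : intSeries ℓ, x = (ℓ : intSeries ℓ) * y := by
  have hn : ∀ n, ∃ y, (⟨x.1.coeff n, mem_intSeries_iff.mp x.2 n⟩ : GaloisRep.ratLocalizedAt ℓ) =
      (ℓ : GaloisRep.ratLocalizedAt ℓ) * y := by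
    intro n
    refine exists_eq_mul_of_redHom_eq_zero ?_
    have := congrArg (fun z => z.coeff n) h
    simp only [coeff_redSeries, HahnSeries.coeff_zero] at this
    exact this
  choose y hy using hn
  have hℓq : (ℓ : ℚ) ≠ 0 := by exact_mod_cast hℓ.out.ne_zero
  have hval : ∀ n, x.1.coeff n = (ℓ : ℚ) * (y n : ℚ) := by
    intro n
    have := congrArg Subtype.val (hy n)
    push_cast at this
    exact this
  set z : LaurentSeries ℚ := HahnSeries.single 0 (ℓ : ℚ)⁻¹ * x.1 with hz
  have hzc : ∀ n, z.coeff n = (y n : ℚ) := by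
    intro n
    rw [hz, HahnSeries.coeff_single_zero_mul, hval]
    field_simp
  refine ⟨⟨z, mem_intSeries_iff.mpr fun n => by rw [hzc]; exact (y n).2⟩, Subtype.ext ?_⟩
  push_cast
  rw [hz, ← mul_assoc, ← map_natCast (HahnSeries.C : ℚ →+* LaurentSeries ℚ)]
  rw [HahnSeries.C_apply, HahnSeries.single_mul_single, mul_inv_cancel₀ hℓq, add_zero]
  simp

omit hℓ in
theorem exists_den_of_mem_adjoin {S : Set (LaurentSeries ℚ)}
    (hS : ∀ s ∈ S, s ∈ intSeries ℓ) {z : LaurentSeries ℚ}
    (hz : z ∈ IntermediateField.adjoin ℚ S) :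
    ∃ d ∈ intSeries ℓ, d ≠ 0 ∧ d * z ∈ intSeries ℓ := by
  induction hz using IntermediateField.adjoin_induction with
  | mem x hx => exact ⟨1, one_mem _, one_ne_zero, by simpa using hS x hx⟩
  | algebraMap c =>
    refine ⟨(c.den : LaurentSeries ℚ), natCast_mem _ _, ?_, ?_⟩
    · rw [← map_natCast (algebraMap ℚ (LaurentSeries ℚ)), _root_.map_ne_zero]
      exact_mod_cast c.den_ne_zero
    · rw [← map_natCast (algebraMap ℚ (LaurentSeries ℚ)), ← map_mul]
      rw [show (c.den : ℚ) * c = (c.num : ℚ) by rw [mul_comm]; exact_mod_cast Rat.mul_den_eq_num c,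
        map_intCast]
      exact intCast_mem _ _
  | add x y _ _ hx hy =>
    obtain ⟨a, ha, ha0, hax⟩ := hx
    obtain ⟨b, hb, hb0, hby⟩ := hy
    refine ⟨a * b, mul_mem ha hb, mul_ne_zero ha0 hb0, ?_⟩
    rw [show a * b * (x + y) = b * (a * x) + a * (b * y) by ring]
    exact add_mem (mul_mem hb hax) (mul_mem ha hby)
  | inv x _ hx =>
    obtain ⟨a, ha, ha0, hax⟩ := hx
    rcases eq_or_ne x 0 with rfl | hx0
    · exact ⟨1, one_mem _, one_ne_zero, by simp [zero_mem]⟩
    · exact ⟨a * x, hax, mul_ne_zero ha0 hx0, by rwa [mul_assoc, mul_inv_cancel₀ hx0, mul_one]⟩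
  | mul x y _ _ hx hy =>
    obtain ⟨a, ha, ha0, hax⟩ := hx
    obtain ⟨b, hb, hb0, hby⟩ := hy
    refine ⟨a * b, mul_mem ha hb, mul_ne_zero ha0 hb0, ?_⟩
    rw [show a * b * (x * y) = (a * x) * (b * y) by ring]
    exact mul_mem hax hby

/-- If all `c * x ^ n` are integral series, with `c ≠ 0`, then `x` is an integral series. -/
theorem mem_intSeries_of_almostIntegral {c x : LaurentSeries ℚ} (hc : c ≠ 0)
    (h : ∀ n : ℕ, c * x ^ n ∈ intSeries ℓ) : x ∈ intSeries ℓ := by
  by_contra hx
  rw [mem_intSeries_iff] at hx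
  push Not at hx
  set B := {n : ℤ | x.coeff n ∉ GaloisRep.ratLocalizedAt ℓ} with hB
  have hBne : B.Nonempty := hx
  have hsub : B ⊆ x.support := fun n hn h0 => hn (by rw [h0]; exact zero_mem _)
  obtain ⟨m, hm, hmin⟩ : ∃ m ∈ B, ∀ n ∈ B, m ≤ n :=
    ⟨(x.isWF_support.mono hsub).min hBne, Set.IsWF.min_mem _ _, fun n hn => Set.IsWF.min_le _ _ hn⟩
  -- split off the integral lower part
  set x0 : LaurentSeries ℚ := ⟨fun n => if n < m then x.coeff n else 0,
    x.isPWO_support.mono (fun n hn => by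
      simp only [Function.mem_support, HahnSeries.mem_support, ne_eq] at hn ⊢
      split_ifs at hn with h1
      · exact hn
      · exact absurd rfl hn)⟩ with hx0
  have hx0mem : x0 ∈ intSeries ℓ := by
    rw [mem_intSeries_iff]
    intro n
    change (if n < m then x.coeff n else 0) ∈ _
    split_ifs with h1
    · by_contra hn
      exact absurd (hmin n hn) (not_le.mpr h1)
    · exact zero_mem _
  set x1 := x - x0 with hx1
  have key : ∀ n i : ℕ, c * x1 ^ n * x ^ i ∈ intSeries ℓ := by
    intro n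
    induction n with
    | zero => intro i; simpa using h i
    | succ n ih =>
      intro i
      rw [show c * x1 ^ (n + 1) * x ^ i =
        c * x1 ^ n * x ^ (i + 1) - x0 * (c * x1 ^ n * x ^ i) by rw [hx1]; ring]
      exact sub_mem (ih _) (mul_mem hx0mem (ih i))
  have hcm : x1.coeff m = x.coeff m := by
    rw [hx1, HahnSeries.coeff_sub]
    change x.coeff m - (if m < m then x.coeff m else 0) = _
    simp
  have hlt : ∀ n < m, x1.coeff n = 0 := by
    intro n hn
    rw [hx1, HahnSeries.coeff_sub]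
    change x.coeff n - (if n < m then x.coeff n else 0) = _
    simp [hn]
  have hne : x.coeff m ≠ 0 := hsub hm
  have hx1ne : x1 ≠ 0 := fun h0 => hne (by rw [← hcm, h0]; rfl)
  have hord : x1.order = m :=
    le_antisymm (HahnSeries.order_le_of_coeff_ne_zero (by rwa [hcm]))
      (not_lt.mp fun hl => HahnSeries.coeff_order_eq_zero.not.mpr hx1ne (hlt _ hl))
  have hlead : x1.leadingCoeff = x.coeff m := by
    rw [HahnSeries.leadingCoeff_eq, hord, hcm]
  refine hm (mem_ratLocalizedAt_of_forall_pow (HahnSeries.leadingCoeff_ne_zero.mpr hc) fun n => ?_)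
  have hmem := mem_intSeries_iff.mp (key n 0) (c * x1 ^ n * x ^ 0).order
  rw [← HahnSeries.leadingCoeff_eq, pow_zero, mul_one, HahnSeries.leadingCoeff_mul] at hmem
  have hpow : ∀ j : ℕ, (x1 ^ j).leadingCoeff = x1.leadingCoeff ^ j := by
    intro j
    induction j with
    | zero => simp
    | succ j ih => rw [pow_succ, pow_succ, HahnSeries.leadingCoeff_mul, ih]
  rwa [hpow, hlead] at hmem

/-- Elements with integral denominators which are integral over integral series are integral. -/
theorem mem_intSeries_of_isIntegral {A : Type*} [CommRing A] [Algebra A (LaurentSeries ℚ)]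
    (hA : ∀ a : A, algebraMap A (LaurentSeries ℚ) a ∈ intSeries ℓ) {x d : LaurentSeries ℚ}
    (hd : d ∈ intSeries ℓ) (hd0 : d ≠ 0) (hdx : d * x ∈ intSeries ℓ) (hx : IsIntegral A x) :
    x ∈ intSeries ℓ := by
  obtain ⟨p, hp, hpx⟩ := hx
  set D := p.natDegree with hD
  refine mem_intSeries_of_almostIntegral (c := d ^ D) (pow_ne_zero _ hd0) fun n => ?_
  induction n using Nat.strong_induction_on with
  | _ n ih =>
    rcases le_or_gt n D with hn | hn
    · obtain ⟨r, hr⟩ := Nat.exists_eq_add_of_le hn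
      rw [hr, pow_add, show d ^ n * d ^ r * x ^ n = d ^ r * (d * x) ^ n by ring]
      exact mul_mem (pow_mem hd _) (pow_mem hdx _)
    · obtain ⟨r, hr⟩ := Nat.exists_eq_add_of_le hn.le
      have hsum : x ^ D = -∑ i ∈ Finset.range D, algebraMap A _ (p.coeff i) * x ^ i := by
        rw [eval₂_eq_sum_range, Finset.sum_range_succ, ← hD, hp.coeff_natDegree, map_one,
          one_mul] at hpx
        linear_combination hpx
      rw [hr, pow_add, hsum, neg_mul, Finset.sum_mul, mul_neg, Finset.mul_sum]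
      refine neg_mem (sum_mem fun i hi => ?_)
      rw [show d ^ D * (algebraMap A (LaurentSeries ℚ) (p.coeff i) * x ^ i * x ^ r) =
        algebraMap A (LaurentSeries ℚ) (p.coeff i) * (d ^ D * x ^ (i + r)) by ring]
      refine mul_mem (hA _) (ih _ ?_)
      have := Finset.mem_range.mp hi
      omega

end Fermat.Agent.Igusa

end
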