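import Fermat.Agent.ModFun.Embed

/-!
# The modular units `Δ(dτ)/Δ(τ)` and the expansions of their translates

For every coset `c` and every `d ∣ N` we compute the expansion in `exp (2πiτ/N)` of the translates of
`j(dτ)` and of `Δ(dτ)/Δ(τ)`.
-/

set_option autoImplicit false

noncomputable section

open UpperHalfPlane hiding I
open Function Filter Complex CongruenceSubgroup
open scoped Manifold MatrixGroups Real Topology

namespace Fermat.Agent.Igusa

open Fermat.Agent.ModFun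

section Series

variable (R : Type*) [CommRing R]

/-- The `q`-expansion of the discriminant. -/
def deltaSer : LaurentSeries R :=
  HahnSeries.ofPowerSeries ℤ R
    ((PowerSeries.X * ModularCurve.dedekindEtaUnit).map (Int.castRingHom R))

/-- The `q`-expansion of the inverse of the discriminant. -/
def deltaInvSer : LaurentSeries R :=
  HahnSeries.single (-1 : ℤ) 1 *
    HahnSeries.ofPowerSeries ℤ R (ModularCurve.dedekindEtaUnitInv.map (Int.castRingHom R))

theorem deltaSer_eq : deltaSer R = HahnSeries.single (1 : ℤ) 1 *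
    HahnSeries.ofPowerSeries ℤ R (ModularCurve.dedekindEtaUnit.map (Int.castRingHom R)) := by
  rw [deltaSer, map_mul, map_mul, PowerSeries.map_X, HahnSeries.ofPowerSeries_X]

theorem deltaSer_mul_inv : deltaSer R * deltaInvSer R = 1 := by
  have h : HahnSeries.ofPowerSeries ℤ R (ModularCurve.dedekindEtaUnit.map (Int.castRingHom R)) *
      HahnSeries.ofPowerSeries ℤ R (ModularCurve.dedekindEtaUnitInv.map (Int.castRingHom R))
      = 1 := by
    rw [← map_mul, ← map_mul, ModularCurve.dedekindEtaUnit_mul_inv, map_one, map_one]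
  rw [deltaSer_eq, deltaInvSer, mul_mul_mul_comm, h, mul_one, HahnSeries.single_mul_single]
  simp

end Series

theorem discriminant_smul (γ : SL(2, ℤ)) (τ : ℍ) :
    ModularForm.discriminant (γ • τ) = denom γ τ ^ 12 * ModularForm.discriminant τ := by
  have h12 : CuspForm.discriminant (γ • τ) = denom γ τ ^ (12 : ℤ) * CuspForm.discriminant τ :=
    SlashInvariantForm.slash_action_eqn'' CuspForm.discriminant (Γ := 𝒮ℒ) ⟨γ, rfl⟩ τ
  simp only [CuspForm.coe_discriminant] at h12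
  exact_mod_cast h12

theorem coe_denom (γ : SL(2, ℤ)) (z : ℂ) : denom γ z = (γ 1 0 : ℂ) * z + (γ 1 1 : ℂ) := by
  simp [UpperHalfPlane.denom]

theorem discriminant_inv_mem (h : ℕ) : (fun τ => (ModularForm.discriminant τ)⁻¹) ∈ CuspAlg h := by
  refine ⟨?_, fun τ => by simp [perH_discriminant h τ], 1, ?_⟩
  · rw [UpperHalfPlane.mdifferentiable_iff]
    exact (UpperHalfPlane.mdifferentiable_iff.mp mdifferentiable_discriminant).inv
      fun z _ => ModularForm.discriminant_ne_zero _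
  · rw [show ModularForm.discriminant ^ 1 * (fun τ => (ModularForm.discriminant τ)⁻¹) =
      (1 : ℍ → ℂ) from funext fun τ => by
        rw [pow_one]
        exact mul_inv_cancel₀ (ModularForm.discriminant_ne_zero τ)]
    exact isBounded_one

/-- `Δ` in `CuspAlg h`. -/
def discC (h : ℕ) [NeZero h] : CuspAlg h :=
  ⟨ModularForm.discriminant, BddAlg_le_CuspAlg h (discriminant_mem_BddAlg h)⟩

/-- `1/Δ` in `CuspAlg h`. -/
def discInvC (h : ℕ) : CuspAlg h := ⟨_, discriminant_inv_mem h⟩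

theorem laurentExp_discC : laurentExp 1 (discC 1) = deltaSer ℂ := by
  have h1 := laurentExp_of_bdd 1 (discBdd 1)
  rw [qExpBdd_apply, Nat.cast_one] at h1
  refine Eq.trans ?_ (h1.trans (congrArg _ qExpansion_discriminant))
  rfl

theorem laurentExp_discInvC : laurentExp 1 (discInvC 1) = deltaInvSer ℂ := by
  have h1 : discC 1 * discInvC 1 = 1 :=
    Subtype.ext (funext fun τ => mul_inv_cancel₀ (ModularForm.discriminant_ne_zero τ))
  have h2 := congrArg (laurentExp 1) h1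
  rw [map_mul, map_one, laurentExp_discC, ← deltaSer_mul_inv ℂ] at h2
  refine mul_left_cancel₀ ?_ h2
  exact fun h0 => one_ne_zero (α := LaurentSeries ℂ) (by rw [← deltaSer_mul_inv ℂ, h0, zero_mul])

/-- Change of width, for equal functions. -/
theorem laurentExp_widen {e N k : ℕ} [NeZero e] [NeZero N] [NeZero k] (hk : k * e = N)
    (x : CuspAlg e) (y : CuspAlg N) (hxy : (x : ℍ → ℂ) = (y : ℍ → ℂ)) :
    laurentExp N y = ModularCurve.qExpand ℂ k (laurentExp e x) := by
  subst hk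
  rw [← laurentExp_mul k x]
  exact congrArg _ (Subtype.ext hxy.symm)

theorem laurentExp_width_one {N : ℕ} [NeZero N] (x : CuspAlg 1) (y : CuspAlg N)
    (hxy : (x : ℍ → ℂ) = (y : ℍ → ℂ)) :
    laurentExp N y = ModularCurve.qExpand ℂ N (laurentExp 1 x) :=
  laurentExp_widen (mul_one N) x y hxy

section Unit

/-- The function `Δ(dτ)/Δ(τ)`. -/
def uFun (d : ℕ) [NeZero d] (τ : ℍ) : ℂ :=
  ModularForm.discriminant (scaleH d τ) / ModularForm.discriminant τ

theorem uFun_ne_zero (d : ℕ) [NeZero d] (τ : ℍ) : uFun d τ ≠ 0 :=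
  div_ne_zero (ModularForm.discriminant_ne_zero _) (ModularForm.discriminant_ne_zero _)

theorem uFun_smul_of_hermite {d : ℕ} [NeZero d] {g δ : SL(2, ℤ)} {a : ℕ} {b : ℤ} {e : ℕ}
    [NeZero a] [NeZero e]
    (h1 : (d : ℤ) * g 0 0 = δ 0 0 * a) (h2 : (d : ℤ) * g 0 1 = δ 0 0 * b + δ 0 1 * e)
    (h3 : g 1 0 = δ 1 0 * a) (h4 : g 1 1 = δ 1 0 * b + δ 1 1 * e) (τ : ℍ) :
    uFun d (g • τ) = ((e : ℂ) ^ 12)⁻¹ * ModularForm.discriminant (affine a b e τ) *
      (ModularForm.discriminant τ)⁻¹ := by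
  have he : (e : ℂ) ≠ 0 := by exact_mod_cast NeZero.ne e
  have hden : denom δ (affine a b e τ) = denom g τ / (e : ℂ) := by
    rw [coe_denom, coe_denom, coe_affine, eq_div_iff he, h3, h4]
    push_cast
    field_simp
    ring
  have hg0 : denom g (τ : ℂ) ≠ 0 := denom_ne_zero _ τ
  have hΔ := ModularForm.discriminant_ne_zero τ
  rw [uFun, scaleH_smul_of_hermite h1 h2 h3 h4, discriminant_smul, discriminant_smul, hden,
    div_pow]
  field_simp

variable {N : ℕ} [NeZero N]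

theorem uFun_invariant {d : ℕ} [NeZero d] (hd : d ∣ N) {g : SL(2, ℤ)} (hg : g ∈ Gamma0 N)
    (τ : ℍ) : uFun d (g • τ) = uFun d τ := by
  rw [Gamma0_mem, ZMod.intCast_zmod_eq_zero_iff_dvd] at hg
  obtain ⟨k, hk⟩ : (d : ℤ) ∣ g 1 0 := (Int.natCast_dvd_natCast.mpr hd).trans hg
  have hdet : g 0 0 * g 1 1 - g 0 1 * g 1 0 = 1 := by
    have := g.det_coe; rw [Matrix.det_fin_two] at this; exact this
  let δ : SL(2, ℤ) := ⟨!![g 0 0, (d : ℤ) * g 0 1; k, g 1 1], by
    rw [Matrix.det_fin_two_of]; linear_combination hdet + g 0 1 * hk⟩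
  rw [uFun_smul_of_hermite (d := d) (g := g) (δ := δ) (a := d) (b := 0) (e := 1)
    (show _ = g 0 0 * (d : ℤ) by ring)
    (show _ = g 0 0 * 0 + (d : ℤ) * g 0 1 * _ by push_cast; ring)
    (show _ = k * (d : ℤ) by linear_combination hk)
    (show _ = k * 0 + g 1 1 * _ by push_cast; ring), uFun, Nat.cast_one, one_pow, inv_one,
    one_mul, div_eq_mul_inv]
  rfl

theorem uFun_comp_mem (d : ℕ) [NeZero d] (g : SL(2, ℤ)) :
    MDiff (fun τ => uFun d (g • τ)) ∧ MeroAtInfty (fun τ => uFun d (g • τ)) ∧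
      MDiff (fun τ => (uFun d (g • τ))⁻¹) ∧ MeroAtInfty (fun τ => (uFun d (g • τ))⁻¹) := by
  obtain ⟨δ, a, b, e, ha, he, -, h1, h2, h3, h4⟩ := exists_hermite d g
  have : NeZero a := ⟨ha.ne'⟩
  have : NeZero e := ⟨he.ne'⟩
  set G : CuspAlg e := compAffine a b e (discC 1) with hG
  set G' : CuspAlg e := compAffine a b e (discInvC 1) with hG'
  have e1 : (fun τ => uFun d (g • τ)) =
      ((algebraMap ℂ (CuspAlg e) ((e : ℂ) ^ 12)⁻¹ * G * discInvC e : CuspAlg e) : ℍ → ℂ) := by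
    funext τ
    rw [uFun_smul_of_hermite h1 h2 h3 h4]
    rfl
  have e2 : (fun τ => (uFun d (g • τ))⁻¹) =
      ((algebraMap ℂ (CuspAlg e) ((e : ℂ) ^ 12) * G' * discC e : CuspAlg e) : ℍ → ℂ) := by
    funext τ
    rw [uFun_smul_of_hermite h1 h2 h3 h4, mul_inv, mul_inv, inv_inv, inv_inv]
    rfl
  rw [e1, e2]
  exact ⟨(Subtype.prop _ : _ ∈ CuspAlg e).1, (Subtype.prop _ : _ ∈ CuspAlg e).2.2,
    (Subtype.prop _ : _ ∈ CuspAlg e).1, (Subtype.prop _ : _ ∈ CuspAlg e).2.2⟩

/-- `Δ(dτ)/Δ(τ)` in `Hol N`. -/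
def uHol {d : ℕ} [NeZero d] (hd : d ∣ N) : Hol N :=
  ⟨uFun d, by simpa using (uFun_comp_mem d 1).1, fun _ hg τ => uFun_invariant hd hg τ,
    fun g => (uFun_comp_mem d g).2.1⟩

/-- `Δ(τ)/Δ(dτ)` in `Hol N`. -/
def uInvHol {d : ℕ} [NeZero d] (hd : d ∣ N) : Hol N :=
  ⟨fun τ => (uFun d τ)⁻¹, by simpa using (uFun_comp_mem d 1).2.2.1,
    fun _ hg τ => by simp only [uFun_invariant hd hg τ], fun g => (uFun_comp_mem d g).2.2.2⟩

/-- The lower left entry of the representative used for the translate `c`. -/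
def cuspC (c : Coset N) : ℤ := (c.out⁻¹) 1 0

theorem gcd_col_eq {d : ℕ} {g δ : SL(2, ℤ)} {a : ℕ}
    (h1 : (d : ℤ) * g 0 0 = δ 0 0 * a) (h3 : g 1 0 = δ 1 0 * a) :
    Int.gcd (g 1 0) d = a := by
  have hg : IsCoprime (g 0 0) (g 1 0) := ⟨g 1 1, -g 0 1, by
    have := g.det_coe; rw [Matrix.det_fin_two] at this; linear_combination this⟩
  have hδ : IsCoprime (δ 0 0) (δ 1 0) := ⟨δ 1 1, -δ 0 1, by
    have := δ.det_coe; rw [Matrix.det_fin_two] at this; linear_combination this⟩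
  have h5 : Int.gcd ((d : ℤ) * g 0 0) (g 1 0) = a := by
    rw [h1, h3, Int.gcd_mul_right, Int.isCoprime_iff_gcd_eq_one.mp hδ, one_mul, Int.natAbs_natCast]
  refine Eq.trans ?_ h5
  apply Nat.dvd_antisymm
  · exact Int.dvd_gcd (dvd_mul_of_dvd_left (Int.gcd_dvd_right _ _) _) (Int.gcd_dvd_left _ _)
  · refine Int.dvd_gcd (Int.gcd_dvd_right _ _) ?_
    refine IsCoprime.dvd_of_dvd_mul_right ?_ (Int.gcd_dvd_left ((d : ℤ) * g 0 0) (g 1 0))
    exact (hg.of_isCoprime_of_dvd_right (Int.gcd_dvd_right ((d : ℤ) * g 0 0) (g 1 0))).symm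

/-- Expansions of the translates at the coset `c`: `E = N gcd(c,d)² / d`, `z` a root of unity. -/
theorem exists_cusp_expansion {d : ℕ} [NeZero d] (hd : d ∣ N) (c : Coset N) :
    ∃ (e E : ℕ) (_ : NeZero E) (z : ℂˣ), e ∣ N ∧ (z : ℂ) ^ N = 1 ∧
      E * d = N * Int.gcd (cuspC c) d ^ 2 ∧
      laurentExp N (tr N c (jd hd)) =
        ModularCurve.qExpand ℂ E (twist z (ModularCurve.jqModC ℂ)) ∧
      laurentExp N (tr N c (uHol hd)) =
        HahnSeries.C ((e : ℂ) ^ 12)⁻¹ * ModularCurve.qExpand ℂ E (twist z (deltaSer ℂ)) *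
          ModularCurve.qExpand ℂ N (deltaInvSer ℂ) ∧
      laurentExp N (tr N c (uInvHol hd)) =
        HahnSeries.C ((e : ℂ) ^ 12) * ModularCurve.qExpand ℂ E (twist z (deltaInvSer ℂ)) *
          ModularCurve.qExpand ℂ N (deltaSer ℂ) := by
  obtain ⟨δ, a, b, e, ha, he, hae, h1, h2, h3, h4⟩ := exists_hermite d (c.out⁻¹)
  have : NeZero a := ⟨ha.ne'⟩
  have : NeZero e := ⟨he.ne'⟩
  have heN : e ∣ N := (dvd_of_mul_left_eq _ hae).trans hd
  obtain ⟨k, hk⟩ := heN
  have hk' : k * e = N := by rw [mul_comm, hk]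
  have : NeZero k := ⟨fun h0 => NeZero.ne N (by rw [hk, h0, mul_zero])⟩
  have : NeZero (k * a) := ⟨Nat.mul_ne_zero (NeZero.ne k) (NeZero.ne a)⟩
  have hj : (compAffine a b e (jC 1) : ℍ → ℂ) = (tr N c (jd hd) : ℍ → ℂ) := by
    funext τ
    rw [compAffine_apply, tr, compSL_apply, jd_apply, scaleH_smul_of_hermite h1 h2 h3 h4, jH_smul]
    rfl
  set Pe : CuspAlg e := algebraMap ℂ (CuspAlg e) ((e : ℂ) ^ 12)⁻¹ with hPe
  have hu : (Pe * compAffine a b e (discC 1) * discInvC e : CuspAlg e).1 =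
      (tr N c (uHol hd) : ℍ → ℂ) := by
    funext τ
    rw [tr, compSL_apply]
    exact (uFun_smul_of_hermite h1 h2 h3 h4 τ).symm
  set Qe : CuspAlg e := algebraMap ℂ (CuspAlg e) ((e : ℂ) ^ 12) with hQe
  have hv : (Qe * compAffine a b e (discInvC 1) * discC e : CuspAlg e).1 =
      (tr N c (uInvHol hd) : ℍ → ℂ) := by
    funext τ
    rw [tr, compSL_apply]
    change _ = (uFun d (_ • τ))⁻¹
    rw [uFun_smul_of_hermite h1 h2 h3 h4, mul_inv, mul_inv, inv_inv, inv_inv]
    rfl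
  have hC : ∀ (w : ℂ), ModularCurve.qExpand ℂ k (algebraMap ℂ (LaurentSeries ℂ) w) =
      HahnSeries.C w := by
    intro w
    rw [algebraMap_laurent_eq_C, ModularCurve.qExpand_C]
  have hkk : ∀ x : LaurentSeries ℂ, ModularCurve.qExpand ℂ k (ModularCurve.qExpand ℂ e x) =
      ModularCurve.qExpand ℂ N x := by
    intro x
    have : NeZero (k * e) := ⟨Nat.mul_ne_zero (NeZero.ne k) (NeZero.ne e)⟩
    rw [ModularCurve.qExpand_qExpand]
    exact ModularCurve.qExpand_congr hk' x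
  refine ⟨e, k * a, inferInstance, affineRoot b e, dvd_of_mul_left_eq _ hk', ?_, ?_, ?_, ?_, ?_⟩
  · have he0 : (e : ℂ) ≠ 0 := by exact_mod_cast NeZero.ne e
    rw [affineRoot, Units.val_mk0, ← Complex.exp_nat_mul, Complex.exp_eq_one_iff]
    refine ⟨b * k, ?_⟩
    rw [← hk']
    push_cast
    field_simp
  · rw [show Int.gcd (cuspC c) d = a from gcd_col_eq h1 h3, ← hk', ← hae]
    ring
  · rw [laurentExp_widen hk' _ _ hj, laurentExp_compAffine, laurentExp_jC,
      ModularCurve.qExpand_qExpand]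
  · rw [laurentExp_widen hk' _ _ hu, hPe]
    simp only [map_mul, AlgHom.commutes, hC]
    rw [laurentExp_compAffine, laurentExp_discC, ModularCurve.qExpand_qExpand,
      laurentExp_width_one (discInvC 1) (discInvC e) rfl, laurentExp_discInvC, hkk]
  · rw [laurentExp_widen hk' _ _ hv, hQe]
    simp only [map_mul, AlgHom.commutes, hC]
    rw [laurentExp_compAffine, laurentExp_discInvC, ModularCurve.qExpand_qExpand,
      laurentExp_width_one (discC 1) (discC e) rfl, laurentExp_discC, hkk]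

end Unit

end Fermat.Agent.Igusa

end
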