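import Mathlib

/-!
# The matrix `gcd(c, m)²` on the divisors of `N` is positive definite
-/

set_option autoImplicit false

namespace Fermat.Agent.Igusa

theorem gcd_eq_sum_totient_filter {N c m : ℕ} (hc : c ∈ N.divisors) :
    (Nat.gcd c m : ℚ) =
      ∑ e ∈ N.divisors, if e ∣ c ∧ e ∣ m then (Nat.totient e : ℚ) else 0 := by
  obtain ⟨hcN, hN⟩ := Nat.mem_divisors.mp hc
  rw [← Finset.sum_filter]
  have : N.divisors.filter (fun e => e ∣ c ∧ e ∣ m) = (Nat.gcd c m).divisors := by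
    ext e
    have hg : Nat.gcd c m ≠ 0 := Nat.gcd_ne_zero_left (fun h => hN (by simpa [h] using hcN))
    simp only [Finset.mem_filter, Nat.mem_divisors, Nat.dvd_gcd_iff, ne_eq, hg, not_false_iff,
      and_true]
    exact ⟨fun h => h.2, fun h => ⟨⟨h.1.trans hcN, hN⟩, h⟩⟩
  rw [this, ← Nat.cast_sum, Nat.sum_totient]

theorem eq_zero_of_sum_mul_gcd_sq {N : ℕ} (z : ℕ → ℚ)
    (h : ∀ m ∈ N.divisors, ∑ c ∈ N.divisors, z c * (Nat.gcd c m : ℚ) ^ 2 = 0) :
    ∀ c ∈ N.divisors, z c = 0 := by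
  classical
  set D := N.divisors with hD
  set T : ℕ → ℕ → ℚ := fun e f => ∑ c ∈ D, if e ∣ c ∧ f ∣ c then z c else 0 with hT
  have hquad : ∑ e ∈ D, ∑ f ∈ D, (Nat.totient e : ℚ) * Nat.totient f * T e f ^ 2 = 0 := by
    calc ∑ e ∈ D, ∑ f ∈ D, (Nat.totient e : ℚ) * Nat.totient f * T e f ^ 2
        = ∑ e ∈ D, ∑ f ∈ D, ∑ m ∈ D, ∑ c ∈ D, z m * (z c *
            ((if e ∣ c ∧ e ∣ m then (Nat.totient e : ℚ) else 0) *
              (if f ∣ c ∧ f ∣ m then (Nat.totient f : ℚ) else 0))) := by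
          refine Finset.sum_congr rfl fun e _ => Finset.sum_congr rfl fun f _ => ?_
          rw [hT, sq]
          simp only [Finset.sum_mul, Finset.mul_sum]
          refine Finset.sum_congr rfl fun m _ => Finset.sum_congr rfl fun c _ => ?_
          by_cases he : e ∣ c <;> by_cases he' : e ∣ m <;> by_cases hf : f ∣ c <;>
            by_cases hf' : f ∣ m <;> simp [he, he', hf, hf']; ring
      _ = ∑ m ∈ D, z m * ∑ c ∈ D, z c * (Nat.gcd c m : ℚ) ^ 2 := by
          conv_lhs => enter [2, e]; rw [Finset.sum_comm]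
          rw [Finset.sum_comm]
          refine Finset.sum_congr rfl fun m _ => ?_
          rw [Finset.mul_sum]
          conv_lhs => enter [2, e]; rw [Finset.sum_comm]
          rw [Finset.sum_comm]
          refine Finset.sum_congr rfl fun c hc => ?_
          rw [sq, gcd_eq_sum_totient_filter hc, ← hD, Finset.sum_mul]
          simp only [Finset.mul_sum]
      _ = 0 := Finset.sum_eq_zero fun m hm => by rw [h m hm, mul_zero]
  have hT0 : ∀ e ∈ D, T e 1 = 0 := by
    intro e he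
    have h1 : (1 : ℕ) ∈ D :=
      Nat.one_mem_divisors.mpr (Nat.mem_divisors.mp he).2
    have h2 := (Finset.sum_eq_zero_iff_of_nonneg fun e _ => Finset.sum_nonneg fun f _ =>
      mul_nonneg (mul_nonneg (Nat.cast_nonneg _) (Nat.cast_nonneg _)) (sq_nonneg _)).mp hquad e he
    have h3 := (Finset.sum_eq_zero_iff_of_nonneg fun f _ =>
      mul_nonneg (mul_nonneg (Nat.cast_nonneg _) (Nat.cast_nonneg _)) (sq_nonneg _)).mp h2 1 h1
    have hpos : (0 : ℚ) < (Nat.totient e : ℚ) := by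
      exact_mod_cast Nat.totient_pos.mpr (Nat.pos_of_mem_divisors he)
    simpa [hpos.ne'] using h3
  by_contra! hne
  obtain ⟨c, hc, hzc⟩ := hne
  set B := D.filter (fun c => z c ≠ 0) with hB
  have hBne : B.Nonempty := ⟨c, Finset.mem_filter.mpr ⟨hc, hzc⟩⟩
  obtain ⟨hmD, hmz⟩ := Finset.mem_filter.mp (B.max'_mem hBne)
  refine hmz ?_
  rw [← hT0 _ hmD, hT]
  simp only [one_dvd, and_true]
  rw [Finset.sum_eq_single (B.max' hBne)]
  · simp
  · intro d hd hne
    split_ifs with hdvd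
    · by_contra hzd
      have h1 : d ≤ B.max' hBne := B.le_max' d (Finset.mem_filter.mpr ⟨hd, hzd⟩)
      exact hne (le_antisymm h1 (Nat.le_of_dvd (Nat.pos_of_mem_divisors hd) hdvd))
    · rfl
  · exact fun h => absurd hmD h

end Fermat.Agent.Igusa
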