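import Fermat.Agent.Igusa.ChartTensor

/-!
# The geometric fibre of the Igusa scheme in characteristic `ℓ ∤ N` is integral
-/

set_option autoImplicit false
set_option maxHeartbeats 1000000
set_option synthInstance.maxHeartbeats 400000

noncomputable section

open AlgebraicGeometry CategoryTheory CategoryTheory.Limits TensorProduct
open ModularCurve ModularCurve.IgusaScheme

namespace Fermat.Agent.Igusa

/-- A scheme covered by two meeting integral open subschemes is integral. -/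
theorem isIntegral_of_two_opens {X Y₁ Y₂ : Scheme} (f₁ : Y₁ ⟶ X) (f₂ : Y₂ ⟶ X)
    [IsOpenImmersion f₁] [IsOpenImmersion f₂] [IsIntegral Y₁] [IsIntegral Y₂]
    (hcover : ∀ x : X, x ∈ Set.range f₁ ∨ x ∈ Set.range f₂)
    (hmeet : (Set.range f₁ ∩ Set.range f₂).Nonempty) : IsIntegral X := by
  have : IsReduced X := by
    have (x : X) : _root_.IsReduced (X.presheaf.stalk x) := by
      rcases hcover x with ⟨y, rfl⟩ | ⟨y, rfl⟩
      · exact isReduced_of_injective _
          (asIso <| f₁.stalkMap y).commRingCatIsoToRingEquiv.injective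
      · exact isReduced_of_injective _
          (asIso <| f₂.stalkMap y).commRingCatIsoToRingEquiv.injective
    exact isReduced_of_isReduced_stalk _
  have hirr : ∀ {Y : Scheme} (f : Y ⟶ X) [IsIntegral Y],
      IsPreirreducible (Set.range f) := by
    intro Y f _
    rw [← Set.image_univ]
    exact (PreirreducibleSpace.isPreirreducible_univ (X := Y)).image _ f.continuous.continuousOn
  have h1 := hirr f₁
  have h2 := hirr f₂
  have hmeets : ∀ U : Set X, IsOpen U → U.Nonempty → (Set.range f₁ ∩ U).Nonempty := by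
    rintro U hU ⟨x, hx⟩
    rcases hcover x with h | h
    · exact ⟨x, h, hx⟩
    · obtain ⟨y, -, hy1, hyU⟩ := h2 _ U f₁.isOpenEmbedding.isOpen_range hU
        (by rw [Set.inter_comm]; exact hmeet) ⟨x, h, hx⟩
      exact ⟨y, hy1, hyU⟩
  have : IrreducibleSpace X :=
    { isPreirreducible_univ := fun U V hU hV ⟨u, _, hu⟩ ⟨v, _, hv⟩ => by
        obtain ⟨y, -, hy⟩ := h1 U V hU hV (hmeets U hU ⟨u, hu⟩) (hmeets V hV ⟨v, hv⟩)
        exact ⟨y, Set.mem_univ y, hy⟩
      toNonempty := ⟨hmeet.some⟩ }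
  exact isIntegral_of_irreducibleSpace_of_isReduced X

variable {N : ℕ} [NeZero N] {ℓ : ℕ} [hℓ : Fact ℓ.Prime]
variable (K : Type) [Field K] [CharP K ℓ] [Algebra ↥(GaloisRep.ratLocalizedAt ℓ) K]

/-- The chart map `Spec (A ⊗ K) ⟶ X ×_R K`. -/
def chartMap {S : Set (modularFunctionFieldFull N)}
    (ι : Spec (CommRingCat.of (chartAlg N ℓ S)) ⟶ ModularCurve.IgusaScheme N ℓ)
    (hι : ι ≫ igusaTo N ℓ = Spec.map (CommRingCat.ofHom
      (algebraMap ↥(GaloisRep.ratLocalizedAt ℓ) (chartAlg N ℓ S)))) :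
    Spec (CommRingCat.of ((chartAlg N ℓ S) ⊗[↥(GaloisRep.ratLocalizedAt ℓ)] K)) ⟶
      pullback (igusaTo N ℓ)
        (Spec.map (CommRingCat.ofHom (algebraMap ↥(GaloisRep.ratLocalizedAt ℓ) K))) :=
  (pullbackSpecIso ↥(GaloisRep.ratLocalizedAt ℓ) (chartAlg N ℓ S) K).inv ≫
    pullback.map _ _ _ _ ι (𝟙 _) (𝟙 _) (by rw [Category.comp_id, hι])
      (by rw [Category.id_comp, Category.comp_id])

variable {S : Set (modularFunctionFieldFull N)}
  (ι : Spec (CommRingCat.of (chartAlg N ℓ S)) ⟶ ModularCurve.IgusaScheme N ℓ)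
  (hι : ι ≫ igusaTo N ℓ = Spec.map (CommRingCat.ofHom
    (algebraMap ↥(GaloisRep.ratLocalizedAt ℓ) (chartAlg N ℓ S))))

theorem isOpenImmersion_chartMap [IsOpenImmersion ι] : IsOpenImmersion (chartMap K ι hι) := by
  unfold chartMap
  infer_instance

theorem range_chartMap :
    Set.range (chartMap K ι hι) = (pullback.fst (igusaTo N ℓ)
      (Spec.map (CommRingCat.ofHom (algebraMap ↥(GaloisRep.ratLocalizedAt ℓ) K)))) ⁻¹'
        Set.range ι := by
  rw [chartMap]
  simp only [Scheme.Hom.comp_base, TopCat.coe_comp]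
  rw [Set.range_comp, Set.range_eq_univ.mpr, Set.image_univ, Scheme.Pullback.range_map]
  · simp
  · exact (pullbackSpecIso ↥(GaloisRep.ratLocalizedAt ℓ) (chartAlg N ℓ S) K).inv.surjective

theorem isIntegral_pullback_igusaTo (hℓN : ¬ ℓ ∣ N) :
    IsIntegral ↑(pullback (igusaTo N ℓ)
      (Spec.map (CommRingCat.ofHom (algebraMap ↥(GaloisRep.ratLocalizedAt ℓ) K)))) := by
  have := isDomain_tensor K (jFull_mem_intSeries N ℓ) (saturated_fin N ℓ hℓN)
  have := isDomain_tensor K (jFullInv_mem_intSeries N ℓ) (saturated_inf N ℓ hℓN)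
  have := isOpenImmersion_chartMap K (ιFin N ℓ) (ιFin_igusaTo N ℓ)
  have := isOpenImmersion_chartMap K (ιInf N ℓ) (ιInf_igusaTo N ℓ)
  refine isIntegral_of_two_opens (chartMap K (ιFin N ℓ) (ιFin_igusaTo N ℓ))
    (chartMap K (ιInf N ℓ) (ιInf_igusaTo N ℓ)) (fun x => ?_) ?_
  · rw [range_chartMap, range_chartMap]
    exact mem_range_ιFin_or_mem_range_ιInf N ℓ _
  · rw [range_chartMap, range_chartMap]
    have := nontrivial_tensor K (jFullPair_mem_intSeries N ℓ)
    have hm : (fFin N ℓ ≫ ιFin N ℓ) ≫ igusaTo N ℓ = Spec.map (CommRingCat.ofHom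
        (algebraMap ↥(GaloisRep.ratLocalizedAt ℓ) (chartAlgMid N ℓ))) := by
      rw [Category.assoc, ιFin_igusaTo, ← Spec.map_comp, ← CommRingCat.ofHom_comp]
      exact congrArg _ (congrArg _ (inclFin N ℓ).comp_algebraMap)
    obtain ⟨p⟩ : Nonempty (PrimeSpectrum
      ((chartAlgMid N ℓ) ⊗[↥(GaloisRep.ratLocalizedAt ℓ)] K)) := inferInstance
    refine ⟨chartMap K (fFin N ℓ ≫ ιFin N ℓ) hm p, ?_, ?_⟩
    · have hmem : chartMap K (fFin N ℓ ≫ ιFin N ℓ) hm p ∈
          Set.range (chartMap K (fFin N ℓ ≫ ιFin N ℓ) hm) := ⟨p, rfl⟩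
      rw [range_chartMap] at hmem
      obtain ⟨q, hq⟩ := hmem
      exact ⟨fFin N ℓ q, hq⟩
    · have hmem : chartMap K (fFin N ℓ ≫ ιFin N ℓ) hm p ∈
          Set.range (chartMap K (fFin N ℓ ≫ ιFin N ℓ) hm) := ⟨p, rfl⟩
      rw [range_chartMap] at hmem
      obtain ⟨q, hq⟩ := hmem
      refine ⟨fInf N ℓ q, ?_⟩
      exact (congrArg (fun φ : XMid N ℓ ⟶ ModularCurve.IgusaScheme N ℓ => φ q)
        (glue_condition N ℓ)).symm.trans hq

end Fermat.Agent.Igusa

end
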