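import Mathlib
import Fermat.Prelude.Def_ModularCurve_X0ModL

/-!
# Coefficient rings in `ℂ` with a residue field

A subring `V ⊆ ℂ` containing the `N`-th roots of unity and `1/N`, with a map to a field `k` in
which `N ≠ 0`; coefficientwise reduction of Laurent series with coefficients in `V`.
-/

set_option autoImplicit false

noncomputable section

namespace Fermat.Agent.Igusa

open ModularCurve Polynomial

variable {k : Type*} [Field k]

/-- Hypotheses on the coefficient ring and its reduction map. -/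
structure GoodRed (N : ℕ) (V : Subring ℂ) (π : V →+* k) : Prop where
  inv_mem : (N : ℂ)⁻¹ ∈ V
  root_mem : ∀ z : ℂ, z ^ N = 1 → z ∈ V
  ne_zero : (N : k) ≠ 0

variable {N : ℕ} {V : Subring ℂ} {π : V →+* k}

theorem GoodRed.natCast_ne_zero (h : GoodRed N V π) {d : ℕ} (hd : d ∣ N) : (d : k) ≠ 0 := by
  obtain ⟨c, rfl⟩ := hd
  exact fun h0 => h.ne_zero (by rw [Nat.cast_mul, h0, zero_mul])

theorem GoodRed.natCast_inv_mem (h : GoodRed N V π) {d : ℕ} (hd : d ∣ N) : (d : ℂ)⁻¹ ∈ V := by
  obtain ⟨c, rfl⟩ := hd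
  have hN : ((d * c : ℕ) : k) ≠ 0 := h.ne_zero
  rcases eq_or_ne c 0 with rfl | hc
  · simp at hN
  have : (d : ℂ)⁻¹ = ((d * c : ℕ) : ℂ)⁻¹ * (c : ℂ) := by
    have hc' : (c : ℂ) ≠ 0 := by exact_mod_cast hc
    push_cast
    rw [mul_inv]
    field_simp
  rw [this]
  exact mul_mem h.inv_mem (natCast_mem V c)

/-- A root of unity of order dividing `N` reducing to `1` is `1`. -/
theorem GoodRed.eq_one_of_root (h : GoodRed N V π) {z : V} (hz : (z : ℂ) ^ N = 1)
    (hπ : π z = 1) : z = 1 := by
  by_contra hne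
  have hsum : (∑ i ∈ Finset.range N, z ^ i) * (z - 1) = 0 := by
    rw [geom_sum_mul, sub_eq_zero]
    exact Subtype.ext (by simpa using hz)
  rw [mul_eq_zero, sub_eq_zero] at hsum
  rcases hsum with h1 | h1
  · have h2 := congrArg π h1
    rw [map_sum, map_zero] at h2
    simp only [map_pow, hπ, one_pow, Finset.sum_const, Finset.card_range, nsmul_eq_mul,
      mul_one] at h2
    exact h.ne_zero h2
  · exact hne h1

variable (V) in
/-- Laurent series with coefficients in `V`. -/
def serV : Subring (LaurentSeries ℂ) := (coeffMap V.subtype).range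

variable (π) in
/-- Reduction of series with coefficients in `V`. -/
def redV : serV V →+* LaurentSeries k :=
  (coeffMap π).comp
    (RingEquiv.ofBijective (coeffMap V.subtype).rangeRestrict
      ⟨fun x y h => HahnSeries.ext (funext fun n => Subtype.ext (by
          simpa using congrArg (fun z => z.1.coeff n) h)),
        RingHom.rangeRestrict_surjective _⟩).symm.toRingHom

variable (V) in
/-- The element of `serV` attached to a series over `V`. -/
def mkV (y : LaurentSeries V) : serV V := (coeffMap V.subtype).rangeRestrict y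

theorem redV_mkV (y : LaurentSeries V) : redV π (mkV V y) = coeffMap π y := by
  refine congrArg (coeffMap π) ?_
  exact (RingEquiv.ofBijective (coeffMap V.subtype).rangeRestrict
      ⟨fun x y h => HahnSeries.ext (funext fun n => Subtype.ext (by
          simpa using congrArg (fun z => z.1.coeff n) h)),
        RingHom.rangeRestrict_surjective _⟩).symm_apply_apply y

theorem redV_of_eq (x : serV V) (y : LaurentSeries V)
    (h : (x : LaurentSeries ℂ) = coeffMap V.subtype y) : redV π x = coeffMap π y := by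
  rw [show x = mkV V y from Subtype.ext h, redV_mkV]

theorem coeff_mem_of_mem_serV {x : LaurentSeries ℂ} (hx : x ∈ serV V) (n : ℤ) :
    x.coeff n ∈ V := by
  obtain ⟨y, rfl⟩ := hx
  rw [coeffMap_coeff]
  exact (y.coeff n).2

section Valuation

variable (ℓ : ℕ) [hℓ : Fact ℓ.Prime]

theorem exists_valuationSubring_complex : ∃ A : ValuationSubring ℂ, (ℓ : ℂ) ∈ A.nonunits := by
  set R : Subring ℂ := (Int.castRingHom ℂ).range
  let x : R := ⟨(ℓ : ℂ), (ℓ : ℤ), by simp⟩
  have hne : Ideal.span {x} ≠ ⊤ := by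
    rw [Ne, Ideal.span_singleton_eq_top]
    rintro ⟨u, hu⟩
    obtain ⟨m, hm⟩ := (↑u⁻¹ : R).2
    have h1 : (ℓ : ℂ) * (m : ℂ) = 1 := by
      have := congrArg Subtype.val u.mul_inv
      rw [hu] at this
      simpa [x, ← hm] using this
    have h2 : (ℓ : ℤ) * m = 1 := by exact_mod_cast h1
    have := Int.eq_one_of_mul_eq_one_right (by positivity) h2
    exact hℓ.out.one_lt.ne' (by exact_mod_cast this)
  obtain ⟨A, -, hA⟩ := Ideal.image_subset_nonunits_valuationSubring _ hne
  exact ⟨A, hA ⟨x, Ideal.subset_span rfl, rfl⟩⟩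

theorem charP_residueField {A : ValuationSubring ℂ} (hA : (ℓ : ℂ) ∈ A.nonunits) :
    CharP (IsLocalRing.ResidueField A) ℓ := by
  have h0 : ((ℓ : ℕ) : IsLocalRing.ResidueField A) = 0 := by
    rw [← map_natCast (IsLocalRing.residue A), IsLocalRing.residue_eq_zero_iff,
      IsLocalRing.mem_maximalIdeal]
    refine mem_nonunits_iff.mpr fun hu => ?_
    exact (ValuationSubring.coe_mem_nonunits_iff.mp (by simpa using hA) :
      ((ℓ : ℕ) : A) ∈ IsLocalRing.maximalIdeal A) hu
  exact (CharP.charP_iff_prime_eq_zero hℓ.out).mpr h0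

theorem goodRed_residue {N : ℕ} [NeZero N] (hN : ¬ ℓ ∣ N) {A : ValuationSubring ℂ}
    (hA : (ℓ : ℂ) ∈ A.nonunits) :
    GoodRed N A.toSubring (IsLocalRing.residue A : A →+* IsLocalRing.ResidueField A) := by
  have hchar := charP_residueField ℓ hA
  have hne : (N : IsLocalRing.ResidueField A) ≠ 0 := fun h =>
    hN ((CharP.cast_eq_zero_iff _ ℓ N).mp h)
  refine ⟨?_, fun z hz => ?_, hne⟩
  · have hu : IsUnit (N : A) := IsLocalRing.residue_ne_zero_iff_isUnit _ |>.mp (by
      rwa [map_natCast])
    obtain ⟨u, hu⟩ := hu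
    have h1 : (N : ℂ)⁻¹ = ((↑u⁻¹ : A) : ℂ) := by
      refine inv_eq_of_mul_eq_one_right ?_
      have := congrArg Subtype.val (congrArg (fun w => w * (↑u⁻¹ : A)) hu)
      simp only [Units.mul_inv] at this
      push_cast at this
      exact this.symm
    rw [h1]
    exact (↑u⁻¹ : A).2
  · rcases A.mem_or_inv_mem z with h | h
    · exact h
    · have hN1 : 1 ≤ N := Nat.one_le_iff_ne_zero.mpr (NeZero.ne N)
      have hz0 : z ≠ 0 := fun h0 => by simp [h0, zero_pow (NeZero.ne N)] at hz
      have : z = (z⁻¹) ^ (N - 1) := by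
        rw [inv_pow]
        refine eq_inv_of_mul_eq_one_left ?_
        rw [← pow_succ', Nat.sub_add_cancel hN1, hz]
      rw [this]
      exact pow_mem h _

end Valuation

theorem goodRed_top (N : ℕ) [NeZero N] :
    GoodRed N (⊤ : Subring ℂ) ((⊤ : Subring ℂ).subtype) :=
  ⟨Subring.mem_top _, fun _ _ => Subring.mem_top _, by exact_mod_cast NeZero.ne N⟩

end Fermat.Agent.Igusa

end
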